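import Fermat.Agent.LLL.Swap
import Fermat.Agent.LLL.Bounds
import Mathlib.Analysis.InnerProductSpace.PiL2
import Mathlib.Algebra.Polynomial.Eval.SMul
import Mathlib.Algebra.Order.Chebyshev

/-!
# Howgrave-Graham's lattice

Polynomials `g k` of degree at most `k` with coefficient `e k` at `k` give the triangular lattice
of the vectors `(coeff l * X ^ l)`. The first vector of a reduced basis is a polynomial whose values
at `|x| ≤ X` are too small to be nonzero multiples of `M`.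
-/

set_option autoImplicit false

noncomputable section

namespace FA.Coppersmith

open Finset Polynomial

theorem det_gram_of_lattice_eq {E : Type*} [NormedAddCommGroup E] [InnerProductSpace ℝ E] {n : ℕ}
    {b c : Fin n → E} (h : FA.LLL.lattice b = FA.LLL.lattice c) :
    (Matrix.gram ℝ b).det = (Matrix.gram ℝ c).det := by
  have key : ∀ {b c : Fin n → E}, FA.LLL.lattice b ≤ FA.LLL.lattice c →
      ∃ t : ℤ, (Matrix.gram ℝ b).det = (t : ℝ) ^ 2 * (Matrix.gram ℝ c).det := by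
    intro b c hle
    choose U hU using fun i => FA.LLL.mem_lattice_iff.1 (hle (FA.LLL.self_mem_lattice b i))
    refine ⟨(Matrix.of U).det, ?_⟩
    obtain ⟨V, hV⟩ : ∃ V : Matrix (Fin n) (Fin n) ℝ,
        V = (Int.castRingHom ℝ).mapMatrix (Matrix.of U) := ⟨_, rfl⟩
    have hmul : Matrix.gram ℝ b = V * Matrix.gram ℝ c * V.transpose := by
      ext i j
      rw [Matrix.gram_apply, ← hU i, ← hU j, sum_inner, Matrix.mul_assoc, Matrix.mul_apply]
      refine sum_congr rfl fun k _ => ?_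
      rw [real_inner_smul_left, inner_sum, Matrix.mul_apply, hV]
      refine congrArg₂ (· * ·) rfl (sum_congr rfl fun l _ => ?_)
      simp only [real_inner_smul_right, Matrix.gram_apply, Matrix.transpose_apply,
        RingHom.mapMatrix_apply, Matrix.map_apply, Matrix.of_apply, eq_intCast]
      ring
    have hd : V.det = ((Matrix.of U).det : ℝ) := by
      rw [hV, ← RingHom.map_det, eq_intCast]
    rw [hmul, Matrix.det_mul, Matrix.det_mul, Matrix.det_transpose, hd]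
    ring
  obtain ⟨s, hs⟩ := key h.le
  obtain ⟨t, ht⟩ := key h.ge
  rcases eq_or_ne (Matrix.gram ℝ c).det 0 with h0 | h0
  · rw [hs, h0, mul_zero]
  have h1 : ((t * s) ^ 2 : ℤ) = 1 := by
    have h2 : ((t : ℝ) * s) ^ 2 * (Matrix.gram ℝ c).det = 1 * (Matrix.gram ℝ c).det := by
      rw [mul_pow, mul_assoc, ← hs, ← ht, one_mul]
    exact_mod_cast mul_right_cancel₀ h0 h2
  have h3 : s ^ 2 = 1 := Int.eq_one_of_mul_eq_one_left (sq_nonneg s) (a := t ^ 2)
    (by rw [← mul_pow, h1])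
  have h4 : (s : ℝ) ^ 2 = 1 := by exact_mod_cast h3
  rw [hs, h4, one_mul]

/-- The scaled coefficient vector. -/
def coeffVec (X n : ℕ) (G : ℤ[X]) : EuclideanSpace ℝ (Fin n) :=
  WithLp.toLp 2 fun l : Fin n => (G.coeff (l : ℕ) : ℝ) * (X : ℝ) ^ (l : ℕ)

theorem coeffVec_sum {X n : ℕ} {ι : Type*} (s : Finset ι) (c : ι → ℤ) (g : ι → ℤ[X]) :
    ∑ k ∈ s, (c k : ℝ) • coeffVec X n (g k) = coeffVec X n (∑ k ∈ s, C (c k) * g k) := by
  ext l
  simp [coeffVec, sum_mul, mul_assoc]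

/-- **Howgrave-Graham's lemma with lattice reduction.** -/
theorem exists_small_polynomial {n : ℕ} (g : Fin (n + 1) → ℤ[X]) (e : Fin (n + 1) → ℕ)
    (he : ∀ k, 0 < e k) (hdeg : ∀ k, (g k).natDegree ≤ k) (hlead : ∀ k, (g k).coeff k = e k)
    {X M : ℕ} (hX : 0 < X)
    (hbound : ((n + 1) ^ 2 * 2 ^ n) ^ (n + 1) * (∏ k, e k * X ^ (k : ℕ)) ^ 4 < M ^ (4 * (n + 1))) :
    ∃ G : ℤ[X], G ≠ 0 ∧ G.natDegree < n + 1 ∧
      ∀ x : ℤ, x.natAbs ≤ X → (∀ k, (M : ℤ) ∣ (g k).eval x) → G.eval x = 0 := by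
  obtain ⟨v, hv⟩ : ∃ v : Fin (n + 1) → EuclideanSpace ℝ (Fin (n + 1)),
      v = fun k => coeffVec X (n + 1) (g k) := ⟨_, rfl⟩
  obtain ⟨B, hB⟩ : ∃ B : Matrix (Fin (n + 1)) (Fin (n + 1)) ℝ,
      B = Matrix.of fun (k l : Fin (n + 1)) => ((g k).coeff l : ℝ) * (X : ℝ) ^ (l : ℕ) := ⟨_, rfl⟩
  have hgram : Matrix.gram ℝ v = B * B.transpose := by
    ext k l
    rw [Matrix.gram_apply, PiLp.inner_apply, Matrix.mul_apply]
    simp [hv, hB, coeffVec, mul_comm]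
  obtain ⟨D, hD⟩ : ∃ D : ℝ, D = ((∏ k, e k * X ^ (k : ℕ) : ℕ) : ℝ) := ⟨_, rfl⟩
  have hdetB : B.det = D := by
    rw [Matrix.det_of_isLowerTriangular _ fun k l hkl => ?_, hD, Nat.cast_prod]
    · exact prod_congr rfl fun k _ => by simp [hB, hlead]
    · have hkl' : (k : ℕ) < l := hkl
      simp [hB, coeff_eq_zero_of_natDegree_lt ((hdeg k).trans_lt hkl')]
  have hDpos : 0 < D := by
    rw [hD, Nat.cast_pos]
    exact prod_pos fun k _ => mul_pos (he k) (pow_pos hX _)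
  have hdet : (Matrix.gram ℝ v).det = D ^ 2 := by
    rw [hgram, Matrix.det_mul, Matrix.det_transpose, hdetB, sq]
  have hli : LinearIndependent ℝ v :=
    Matrix.linearIndependent_of_det_gram_ne_zero (hdet ▸ (pow_pos hDpos 2).ne')
  obtain ⟨b, hb, hlat, hred⟩ := FA.LLL.exists_reduced (δ := 3 / 4) (by norm_num) (by norm_num)
    (FA.LLL.nonDeg_of_linearIndependent hli)
  have hshort : (‖b 0‖ ^ 2) ^ (n + 1) ≤ 2 ^ ((n + 1) * n / 2) * D ^ 2 := by
    have := FA.LLL.prod_norm_sq_le hred.1 hred.2 (fun _ => 0) fun i => Fin.zero_le i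
    rw [det_gram_of_lattice_eq hlat, hdet] at this
    simpa using this
  obtain ⟨c, hc⟩ := FA.LLL.mem_lattice_iff.1 (hlat ▸ FA.LLL.self_mem_lattice b 0)
  obtain ⟨G, hG⟩ : ∃ G : ℤ[X], G = ∑ k, C (c k) * g k := ⟨_, rfl⟩
  have hvec : b 0 = coeffVec X (n + 1) G := by
    rw [← hc, hG, hv]
    exact coeffVec_sum univ c g
  have hGdeg : G.natDegree < n + 1 := by
    rw [hG]
    refine Nat.lt_succ_of_le (natDegree_sum_le_of_forall_le _ _ fun k _ => ?_)
    exact (natDegree_C_mul_le _ _).trans ((hdeg k).trans (Nat.le_of_lt_succ k.isLt))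
  refine ⟨G, fun h0 => ?_, hGdeg, fun x hx hdiv => ?_⟩
  · have h1 := FA.LLL.orthSq_pos hb 0
    have h2 := FA.LLL.orthSq_le_norm_sq b 0
    have h3 : ‖b 0‖ = 0 := by
      rw [hvec, h0, norm_eq_zero]
      ext l
      simp [coeffVec]
    rw [h3] at h2
    linarith
  by_contra hne
  -- the value is small
  have hMle : (M : ℝ) ≤ |((G.eval x : ℤ) : ℝ)| := by
    have hdvd : (M : ℤ) ∣ G.eval x := by
      rw [hG, eval_finsetSum]
      exact dvd_sum fun k _ => by rw [eval_mul]; exact Dvd.dvd.mul_left (hdiv k) _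
    have := Int.le_of_dvd (abs_pos.2 hne) ((dvd_abs _ _).2 hdvd)
    exact_mod_cast this
  have habs : |((G.eval x : ℤ) : ℝ)| ≤
      ∑ l : Fin (n + 1), |(G.coeff l : ℝ) * (X : ℝ) ^ (l : ℕ)| := by
    rw [eval_eq_sum_range' hGdeg, Fin.sum_univ_eq_sum_range
      (fun l => |(G.coeff l : ℝ) * (X : ℝ) ^ l|) (n + 1), Int.cast_sum]
    refine (abs_sum_le_sum_abs _ _).trans (sum_le_sum fun l _ => ?_)
    rw [Int.cast_mul, Int.cast_pow, abs_mul, abs_mul, abs_pow, abs_pow, Nat.abs_cast]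
    refine mul_le_mul_of_nonneg_left (pow_le_pow_left₀ (abs_nonneg _) ?_ l) (abs_nonneg _)
    have : |x| ≤ (X : ℤ) := by
      rw [Int.abs_eq_natAbs]
      exact_mod_cast hx
    exact_mod_cast this
  have hsq : (M : ℝ) ^ 2 ≤ (n + 1) * ‖b 0‖ ^ 2 := by
    refine (pow_le_pow_left₀ (Nat.cast_nonneg M) (hMle.trans habs) 2).trans ?_
    refine sq_sum_le_card_mul_sum_sq.trans (le_of_eq ?_)
    rw [Finset.card_univ, Fintype.card_fin, hvec, EuclideanSpace.norm_sq_eq]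
    simp [coeffVec]
  have hpow := pow_le_pow_left₀ (by positivity) ((pow_le_pow_left₀ (by positivity) hsq (n + 1))) 2
  rw [mul_pow ((n : ℝ) + 1)] at hpow
  have h2 : ((2 : ℝ) ^ ((n + 1) * n / 2)) ^ 2 ≤ (2 ^ n) ^ (n + 1) := by
    rw [← pow_mul, ← pow_mul]
    refine pow_le_pow_right₀ one_le_two ?_
    have := Nat.div_mul_le_self ((n + 1) * n) 2
    rw [mul_comm n]
    exact this
  have hfin : ((M : ℝ) ^ (4 * (n + 1))) ≤ (((n : ℝ) + 1) ^ 2 * 2 ^ n) ^ (n + 1) * D ^ 4 := by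
    calc (M : ℝ) ^ (4 * (n + 1)) = (((M : ℝ) ^ 2) ^ (n + 1)) ^ 2 := by
          rw [← pow_mul, ← pow_mul]; congr 1; ring
      _ ≤ (((n : ℝ) + 1) ^ (n + 1) * (‖b 0‖ ^ 2) ^ (n + 1)) ^ 2 := hpow
      _ ≤ (((n : ℝ) + 1) ^ (n + 1) * (2 ^ ((n + 1) * n / 2) * D ^ 2)) ^ 2 := by gcongr
      _ = (((n : ℝ) + 1) ^ 2) ^ (n + 1) * ((2 : ℝ) ^ ((n + 1) * n / 2)) ^ 2 * D ^ 4 := by
          rw [mul_pow, mul_pow, ← pow_mul ((n : ℝ) + 1), ← pow_mul ((n : ℝ) + 1),
            mul_comm (n + 1) 2]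
          ring
      _ ≤ (((n : ℝ) + 1) ^ 2) ^ (n + 1) * (2 ^ n) ^ (n + 1) * D ^ 4 := by gcongr
      _ = _ := by rw [mul_pow _ ((2 : ℝ) ^ n)]
  have hcast : (((n + 1) ^ 2 * 2 ^ n : ℕ) : ℝ) ^ (n + 1) * D ^ 4 < (M : ℝ) ^ (4 * (n + 1)) := by
    rw [hD]
    exact_mod_cast hbound
  push_cast at hcast
  exact absurd (hcast.trans_le hfin) (lt_irrefl _)

end FA.Coppersmith
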