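import Fermat.Agent.Coppersmith.Lattice
import Mathlib.Algebra.Polynomial.Roots
import Mathlib.Analysis.SpecialFunctions.Pow.Real

/-!
# Coppersmith's theorem on small roots

The polynomials `N ^ (m - i) X ^ j f ^ i` vanish modulo `N ^ m` at every root of `f` modulo `N`.
For large `m` their lattice captures all roots up to `N ^ (1 / d - ε)`, so these are boundedly many.
-/

set_option autoImplicit false

noncomputable section

namespace FA.Coppersmith

open Finset Polynomial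

/-- The `k`-th lattice polynomial. -/
def shiftPoly (f : ℤ[X]) (N m k : ℕ) : ℤ[X] :=
  C ((N : ℤ) ^ (m - k / f.natDegree)) * (X ^ (k % f.natDegree) * f ^ (k / f.natDegree))

theorem shiftPoly_degree {f : ℤ[X]} (hf : f.Monic) (N m k : ℕ) :
    (shiftPoly f N m k).natDegree ≤ k ∧
      (shiftPoly f N m k).coeff k = (N : ℤ) ^ (m - k / f.natDegree) := by
  have hmon : (X ^ (k % f.natDegree) * f ^ (k / f.natDegree) : ℤ[X]).Monic :=
    (monic_X_pow _).mul (hf.pow _)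
  have hdeg : (X ^ (k % f.natDegree) * f ^ (k / f.natDegree) : ℤ[X]).natDegree = k := by
    rw [(monic_X_pow _).natDegree_mul (hf.pow _), natDegree_X_pow, hf.natDegree_pow,
      Nat.mod_add_div']
  refine ⟨(natDegree_C_mul_le _ _).trans hdeg.le, ?_⟩
  rw [shiftPoly, coeff_C_mul]
  conv_lhs => arg 2; arg 2; rw [← hdeg]
  rw [hmon.coeff_natDegree, mul_one]

theorem shiftPoly_dvd {f : ℤ[X]} {N m k : ℕ} (hk : k < f.natDegree * m) {x : ℤ}
    (hx : (N : ℤ) ∣ f.eval x) : ((N ^ m : ℕ) : ℤ) ∣ (shiftPoly f N m k).eval x := by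
  have hi : k / f.natDegree ≤ m :=
    (Nat.div_lt_of_lt_mul hk).le
  rw [shiftPoly, eval_mul, eval_C, eval_mul, eval_pow, eval_pow, eval_X, Nat.cast_pow]
  conv_lhs => rw [← Nat.sub_add_cancel hi, pow_add]
  exact mul_dvd_mul_left _ (Dvd.dvd.mul_left (pow_dvd_pow_of_dvd hx _) _)

theorem two_mul_sum_exp (d : ℕ) (hd : 0 < d) :
    ∀ m, 2 * ∑ k ∈ range (d * m), (m - k / d) = d * m * (m + 1) := by
  intro m
  induction m with
  | zero => simp
  | succ m ih =>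
    rw [Nat.mul_succ, add_comm (d * m) d, sum_range_add,
      sum_congr rfl (g := fun _ => m + 1) fun k hk => by
        rw [Nat.div_eq_of_lt (mem_range.1 hk), Nat.sub_zero],
      sum_congr rfl (g := fun k => m - k / d) (s₂ := range (d * m)) fun k _ => by
        rw [Nat.add_div_left k hd]
        omega,
      sum_const, card_range, smul_eq_mul, mul_add, ih]
    ring

/-- **Coppersmith's theorem.** -/
theorem exists_root_polynomial {f : ℤ[X]} (hf : f.Monic) (hd : 0 < f.natDegree) {m N X : ℕ}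
    (hm : 0 < m) (hN : 0 < N) (hX : 0 < X)
    (h : (f.natDegree * m) ^ 2 * 2 ^ (f.natDegree * m - 1) *
      X ^ (2 * (f.natDegree * m - 1)) < N ^ (2 * (m - 1))) :
    ∃ G : ℤ[X], G ≠ 0 ∧ G.natDegree < f.natDegree * m ∧
      ∀ x : ℤ, x.natAbs ≤ X → (N : ℤ) ∣ f.eval x → G.eval x = 0 := by
  obtain ⟨n, hn⟩ : ∃ n, f.natDegree * m = n + 1 :=
    ⟨f.natDegree * m - 1, by have := Nat.mul_pos hd hm; omega⟩
  rw [hn, Nat.add_sub_cancel] at h
  have hbd : ((n + 1) ^ 2 * 2 ^ n) ^ (n + 1) *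
      (∏ k : Fin (n + 1), N ^ (m - (k : ℕ) / f.natDegree) * X ^ (k : ℕ)) ^ 4 <
      (N ^ m) ^ (4 * (n + 1)) := by
    rw [Fin.prod_univ_eq_prod_range (fun k => N ^ (m - k / f.natDegree) * X ^ k) (n + 1),
      prod_mul_distrib, prod_pow_eq_pow_sum, prod_pow_eq_pow_sum]
    obtain ⟨S, hS⟩ : ∃ S, S = ∑ k ∈ range (n + 1), (m - k / f.natDegree) := ⟨_, rfl⟩
    obtain ⟨T, hT⟩ : ∃ T, T = ∑ k ∈ range (n + 1), k := ⟨_, rfl⟩
    have eS : 4 * S = 2 * (m + 1) * (n + 1) := by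
      have := two_mul_sum_exp f.natDegree hd m
      rw [hn, ← hS] at this
      linarith
    have eT : 4 * T = 2 * n * (n + 1) := by
      have := Finset.sum_range_id_mul_two (n + 1)
      rw [← hT, Nat.add_sub_cancel] at this
      linarith
    rw [← hS, ← hT]
    calc ((n + 1) ^ 2 * 2 ^ n) ^ (n + 1) * (N ^ S * X ^ T) ^ 4
        = N ^ (2 * (m + 1) * (n + 1)) * ((n + 1) ^ 2 * 2 ^ n * X ^ (2 * n)) ^ (n + 1) := by
          rw [mul_pow (N ^ S), ← pow_mul N, ← pow_mul X, mul_comm S, mul_comm T, eS, eT,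
            pow_mul X (2 * n), mul_pow _ (X ^ (2 * n))]
          ring
      _ < N ^ (2 * (m + 1) * (n + 1)) * (N ^ (2 * (m - 1))) ^ (n + 1) :=
          Nat.mul_lt_mul_of_pos_left (Nat.pow_lt_pow_left h (Nat.succ_ne_zero n)) (pow_pos hN _)
      _ = (N ^ m) ^ (4 * (n + 1)) := by
          rw [← pow_mul, ← pow_mul, ← pow_add, ← add_mul, ← Nat.mul_add,
            show m + 1 + (m - 1) = 2 * m by omega]
          congr 1
          ring
  obtain ⟨G, h1, h2, h3⟩ := exists_small_polynomial (X := X) (M := N ^ m)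
    (fun k : Fin (n + 1) => shiftPoly f N m k) (fun k => N ^ (m - (k : ℕ) / f.natDegree))
    (fun k => pow_pos hN _) (fun k => (shiftPoly_degree hf N m k).1)
    (fun k => by rw [(shiftPoly_degree hf N m k).2, Nat.cast_pow]) hX hbd
  rw [← hn] at h2
  refine ⟨G, h1, h2, fun x hx hdvd => h3 x hx fun k => shiftPoly_dvd ?_ hdvd⟩
  rw [hn]
  exact k.isLt

theorem card_interval_le {K : ℕ} {s : Finset ℤ} (h : ∀ x ∈ s, x.natAbs ≤ K) :
    s.card ≤ 2 * K + 1 := by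
  refine (card_le_card (t := Finset.Icc (-(K : ℤ)) K) fun x hx => ?_).trans ?_
  · rw [Finset.mem_Icc]
    have := h x hx
    omega
  · rw [Int.card_Icc]
    omega

/-- Boundedly many roots up to `N ^ (1 / d - ε)`. -/
theorem exists_count_bound {d : ℕ} (hd : 0 < d) {ε : ℝ} (hε : 0 < ε) :
    ∃ C : ℕ, ∀ (N : ℕ) (f : ℤ[X]), f.Monic → f.natDegree = d → ∀ s : Finset ℤ,
      (∀ x ∈ s, (N : ℤ) ∣ f.eval x ∧ |(x : ℝ)| ≤ (N : ℝ) ^ (1 / (d : ℝ) - ε)) → s.card ≤ C := by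
  obtain ⟨m, hm⟩ := exists_nat_ge (2 / ε + 2)
  have hε2 : 0 < 2 / ε := div_pos two_pos hε
  have hm2 : 2 ≤ m := by exact_mod_cast (show (2 : ℝ) ≤ m by linarith)
  obtain ⟨n, hn⟩ : ∃ n, n = d * m := ⟨_, rfl⟩
  obtain ⟨a, ha⟩ : ∃ a, a = 1 / (d : ℝ) - ε := ⟨_, rfl⟩
  obtain ⟨K, hK⟩ : ∃ K, K = n ^ 2 * 2 ^ (n - 1) := ⟨_, rfl⟩
  have hnm : m ≤ n := hn ▸ Nat.le_mul_of_pos_left m hd
  have hK1 : 1 ≤ K := by
    rw [hK]
    exact Nat.mul_pos (pow_pos (by omega) 2) (pow_pos two_pos _)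
  refine ⟨n + (2 * K + 1), fun N f hf hfd s hs => ?_⟩
  have hd1 : (1 : ℝ) ≤ d := by exact_mod_cast hd
  have ha1 : a ≤ 1 := by
    rw [ha]
    have : 1 / (d : ℝ) ≤ 1 := by rw [div_le_one (by linarith)]; exact hd1
    linarith
  rcases le_or_gt N K with hNK | hNK
  · refine (card_interval_le (K := K) fun x hx => ?_).trans (Nat.le_add_left _ _)
    have h1 := (hs x hx).2
    rw [← ha] at h1
    have h2 : (N : ℝ) ^ a ≤ K := by
      rcases Nat.eq_zero_or_pos N with rfl | hN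
      · rcases eq_or_ne a 0 with h0 | h0
        · simpa [h0] using hK1
        · simp [Real.zero_rpow h0]
      · exact (Real.rpow_le_self_of_one_le (by exact_mod_cast hN) ha1).trans
          (by exact_mod_cast hNK)
    have h3 : ((x.natAbs : ℕ) : ℝ) ≤ K := by
      rw [Nat.cast_natAbs, Int.cast_abs]
      exact h1.trans h2
    exact_mod_cast h3
  have hN : (1 : ℝ) ≤ N := by exact_mod_cast (by omega : 1 ≤ N)
  obtain ⟨X, hX⟩ : ∃ X, X = max 1 ⌊(N : ℝ) ^ a⌋₊ := ⟨_, rfl⟩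
  have hXle : (X : ℝ) ≤ (N : ℝ) ^ max 0 a := by
    rw [hX, Nat.cast_max, max_le_iff, Nat.cast_one]
    exact ⟨Real.one_le_rpow hN (le_max_left _ _), (Nat.floor_le (by positivity)).trans
      (Real.rpow_le_rpow_of_exponent_le hN (le_max_right _ _))⟩
  have hexp : max 0 a * ((n - 1 : ℕ) : ℝ) ≤ ((m - 2 : ℕ) : ℝ) := by
    rcases le_total a 0 with h0 | h0
    · rw [max_eq_left h0, zero_mul]
      exact Nat.cast_nonneg _
    · rw [max_eq_right h0, ha, Nat.cast_sub (by omega), Nat.cast_sub hm2, hn]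
      push_cast
      have h1 : 2 ≤ ε * ((m : ℝ) - 2) := by
        rw [← div_le_iff₀' hε]
        linarith
      have hdm : (m : ℝ) ≤ (d : ℝ) * m := le_mul_of_one_le_left (Nat.cast_nonneg _) hd1
      have h2 := mul_le_mul_of_nonneg_left (sub_le_sub_right hdm 2) hε.le
      have h3 : 0 < 1 / (d : ℝ) := by positivity
      have h4 : 1 / (d : ℝ) * ((d : ℝ) * m) = m := by field_simp
      rw [sub_mul, mul_sub, h4]
      linarith
  have hXpow : X ^ (n - 1) ≤ N ^ (m - 2) := by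
    have h1 := pow_le_pow_left₀ (Nat.cast_nonneg X) hXle (n - 1)
    rw [← Real.rpow_natCast ((N : ℝ) ^ max 0 a), ← Real.rpow_mul (by linarith)] at h1
    have h2 := h1.trans (Real.rpow_le_rpow_of_exponent_le hN hexp)
    rw [Real.rpow_natCast] at h2
    exact_mod_cast h2
  have hcond : n ^ 2 * 2 ^ (n - 1) * X ^ (2 * (n - 1)) < N ^ (2 * (m - 1)) := by
    rw [← hK, mul_comm 2 (n - 1), pow_mul, mul_comm 2 (m - 1), pow_mul,
      show m - 1 = m - 2 + 1 by omega, pow_succ N, mul_pow, mul_comm ((N ^ (m - 2)) ^ 2)]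
    have h1 : K < N ^ 2 := lt_of_lt_of_le hNK (by rw [sq]; exact Nat.le_mul_self N)
    exact (Nat.mul_le_mul_left K (Nat.pow_le_pow_left hXpow 2)).trans_lt
      (Nat.mul_lt_mul_of_pos_right h1 (pow_pos (pow_pos (by omega) _) 2))
  rw [hn, ← hfd] at hcond
  obtain ⟨G, hG0, hGdeg, hroot⟩ := exists_root_polynomial hf (hfd ▸ hd) (by omega) (by omega)
    (hX ▸ lt_of_lt_of_le one_pos (le_max_left _ _)) hcond
  have hsub : s.val ⊆ G.roots := fun x hx => by
    rw [mem_roots hG0]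
    refine hroot x ?_ (hs x hx).1
    have h1 := (hs x hx).2
    rw [← ha] at h1
    rw [hX]
    refine le_trans (Nat.le_floor ?_) (le_max_right _ _)
    rwa [Nat.cast_natAbs, Int.cast_abs]
  refine ((card_le_degree_of_subset_roots hsub).trans hGdeg.le).trans ?_
  rw [hfd, ← hn]
  exact Nat.le_add_right _ _

/-- The exponent `1 / d` is the limit. -/
theorem exists_many_roots {d : ℕ} (hd : 0 < d) {ε : ℝ} (hε : 0 < ε) (C : ℕ) :
    ∃ (N : ℕ) (f : ℤ[X]), 1 < N ∧ f.Monic ∧ f.natDegree = d ∧ ∃ s : Finset ℤ,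
      (∀ x ∈ s, (N : ℤ) ∣ f.eval x ∧ |(x : ℝ)| ≤ (N : ℝ) ^ (1 / (d : ℝ) + ε)) ∧ C < s.card := by
  obtain ⟨T, hT⟩ : ∃ T, T = C + 1 := ⟨_, rfl⟩
  have hdε : 0 < (d : ℝ) * ε := mul_pos (by exact_mod_cast hd) hε
  obtain ⟨p, hp⟩ := exists_nat_ge (((T : ℝ) ^ ((d : ℝ) * ε)⁻¹) + 2)
  have hTnn : 0 ≤ (T : ℝ) ^ ((d : ℝ) * ε)⁻¹ := Real.rpow_nonneg (Nat.cast_nonneg _) _
  have hp2 : 2 ≤ p := by exact_mod_cast (show (2 : ℝ) ≤ p by linarith)
  have hp0 : (0 : ℝ) < p := by exact_mod_cast (by omega : 0 < p)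
  refine ⟨p ^ d, X ^ d, Nat.one_lt_pow hd.ne' (by omega), monic_X_pow d, natDegree_X_pow d,
    (range T).image fun t : ℕ => ((p * t : ℕ) : ℤ), fun x hx => ?_, ?_⟩
  · obtain ⟨t, ht, rfl⟩ := mem_image.1 hx
    refine ⟨?_, ?_⟩
    · rw [eval_pow, eval_X, ← Nat.cast_pow, Int.natCast_dvd_natCast, mul_pow]
      exact dvd_mul_right _ _
    · have h1 : (T : ℝ) ≤ (p : ℝ) ^ ((d : ℝ) * ε) := by
        have := Real.rpow_le_rpow hTnn (show (T : ℝ) ^ ((d : ℝ) * ε)⁻¹ ≤ p by linarith) hdε.le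
        rwa [Real.rpow_inv_rpow (Nat.cast_nonneg _) hdε.ne'] at this
      rw [Int.cast_natCast, Nat.abs_cast, Nat.cast_mul, Nat.cast_pow, ← Real.rpow_natCast,
        ← Real.rpow_mul hp0.le, mul_add, mul_one_div_cancel (by exact_mod_cast hd.ne'),
        Real.rpow_add hp0, Real.rpow_one]
      have h2 : (t : ℝ) ≤ T := by exact_mod_cast (mem_range.1 ht).le
      exact mul_le_mul_of_nonneg_left (h2.trans h1) hp0.le
  · rw [card_image_of_injective _ fun a b h =>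
      Nat.eq_of_mul_eq_mul_left (by omega : 0 < p) (Int.ofNat_inj.1 h), card_range, hT]
    exact Nat.lt_succ_self C

end FA.Coppersmith
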